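/-
S26 / block P, leaf P4 (prover helper8): function field maps of `K`-morphisms are `K`-linear, and a
finite homomorphism of fields makes the target finite dimensional over the range.
-/
import Fermat.Agent.S26.B.Defs

set_option autoImplicit false

universe u

open CategoryTheory CategoryTheory.Limits AlgebraicGeometry NeronModelInfra GoodReductionJacobian

namespace Fermat.Agent.S26.P

/-- the constant `a`, seen from the local ring at an arbitrary point. -/
theorem constFF_eq_toFF {K : Type u} [Field K] {T : Scheme.{u}} [IsIntegral T] (t : T ⟶ SpK K)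
    (z : T) (a : K) :
    constFF K t a = toFF z (T.presheaf.germ ⊤ z trivial
      (t.appTop.hom ((Scheme.ΓSpecIso (CommRingCat.of K)).inv.hom a))) := by
  have : Nonempty (⊤ : T.Opens) := ⟨⟨z, trivial⟩⟩
  rw [toFF, Scheme.algebraMap_germ_eq_germToFunctionField]
  rfl

/-- **P4.** function field maps of `K`-morphisms are `K`-linear. -/
theorem isFnMap_constFF' {K : Type u} [Field K] {X Y : Scheme.{u}} [IsIntegral X] [IsIntegral Y]
    (x : X ⟶ SpK K) (y : Y ⟶ SpK K) (φ : X ⟶ Y) (hφ : φ ≫ y = x)
    (ψ : Y.functionField →+* X.functionField) (h : IsFnMap φ ψ) (a : K) :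
    ψ (constFF K y a) = constFF K x a := by
  subst hφ
  rw [constFF_eq_toFF y (φ (genericPoint X)) a, h (genericPoint X),
    constFF_eq_toFF (φ ≫ y) (genericPoint X) a]
  congr 1
  rw [Scheme.Hom.germ_stalkMap_apply, Scheme.Hom.comp_appTop]
  rfl

/-- a finite homomorphism of fields: the target is finite dimensional over the range. -/
theorem finiteDimensional_fieldRange {K F F' : Type*} [Field K] [Field F] [Field F'] [Algebra K F]
    [Algebra K F'] (ψ : F →ₐ[K] F') (h : ψ.toRingHom.Finite) :
    FiniteDimensional ψ.fieldRange F' := by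
  let _ := ψ.toRingHom.toAlgebra
  have hfin : Module.Finite F F' := h
  obtain ⟨s, hs⟩ := hfin.fg_top
  refine ⟨⟨s, ?_⟩⟩
  rw [eq_top_iff]
  intro z hz0
  clear hz0
  have hz : z ∈ Submodule.span F (s : Set F') := by rw [hs]; trivial
  induction hz using Submodule.span_induction with
  | mem v hv => exact Submodule.subset_span hv
  | zero => exact Submodule.zero_mem _
  | add v w _ _ hv hw => exact Submodule.add_mem _ hv hw
  | smul c v _ hv =>
    have e : c • v = (⟨ψ c, ⟨c, rfl⟩⟩ : ψ.fieldRange) • v := rfl
    rw [e]
    exact Submodule.smul_mem _ _ hv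

end Fermat.Agent.S26.P
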