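/-
S26, block P, node P2 (task 3356): an integral scheme over an algebraically closed field is
geometrically integral.
-/
import Mathlib
import Fermat.Agent.S27.H.TensorDomain

set_option autoImplicit false

universe u

noncomputable section

namespace Fermat.Agent.S26.P

open AlgebraicGeometry CategoryTheory Limits
open scoped TensorProduct

/-- a nonempty space covered by irreducible open subsets which meet pairwise is irreducible. -/
theorem irreducibleSpace_of_cover {Y ι : Type*} [TopologicalSpace Y] [Nonempty Y] (V : ι → Set Y)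
    (hopen : ∀ i, IsOpen (V i)) (hirr : ∀ i, IsPreirreducible (V i))
    (hcov : ∀ y, ∃ i, y ∈ V i)
    (hmeet : ∀ i j, (V i).Nonempty → (V j).Nonempty → (V i ∩ V j).Nonempty) :
    IrreducibleSpace Y := by
  have : PreirreducibleSpace Y := by
    refine ⟨fun A B hA hB hA' hB' => ?_⟩
    obtain ⟨a, -, ha⟩ := hA'
    obtain ⟨b, -, hb⟩ := hB'
    obtain ⟨i, hi⟩ := hcov a
    obtain ⟨j, hj⟩ := hcov b
    obtain ⟨c, -, hcA, hcj⟩ := hirr i A (V j) hA (hopen j) ⟨a, hi, ha⟩ (hmeet i j ⟨a, hi⟩ ⟨b, hj⟩)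
    obtain ⟨d, -, hd⟩ := hirr j A B hA hB ⟨c, hcj, hcA⟩ ⟨b, hj, hb⟩
    exact ⟨d, trivial, hd⟩
  exact ⟨inferInstance⟩

theorem isReduced_of_isEmpty' (W : Scheme.{u}) [IsEmpty W] : IsReduced W :=
  ⟨fun _ => inferInstance⟩

variable {K : Type u} [Field K] [IsAlgClosed K]

/-- the affine case. -/
theorem geometricallyIntegral_Spec (B : Type u) [CommRing B] [IsDomain B] [Algebra K B] :
    GeometricallyIntegral (Spec.map (CommRingCat.ofHom (algebraMap K B))) := by
  refine ⟨?_⟩
  rw [geometrically_iff_of_commRing]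
  intro K' _ _ Y fst snd hpb
  have hdom : IsDomain (B ⊗[K] K') :=
    Fermat.Agent.S27.H.isDomain_tensorProduct_of_isAlgClosed K B K'
  have : IsIntegral (Spec (CommRingCat.of (B ⊗[K] K'))) := inferInstance
  exact IsIntegral.of_isIso ((pullbackSpecIso K B K').symm ≪≫ hpb.isoPullback.symm).hom

/-- the case of an affine scheme. -/
theorem geometricallyIntegral_of_isAffine {U : Scheme.{u}} [IsAffine U] [IsIntegral U]
    (f : U ⟶ Spec (CommRingCat.of K)) : GeometricallyIntegral f := by
  obtain ⟨ψ, hψ⟩ := Spec.map_surjective (U.isoSpec.inv ≫ f)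
  let _ : Algebra K Γ(U, ⊤) := ψ.hom.toAlgebra
  have h1 : GeometricallyIntegral (Spec.map ψ) := geometricallyIntegral_Spec (K := K) Γ(U, ⊤)
  have h2 : f = U.isoSpec.hom ≫ Spec.map ψ := by rw [hψ, Iso.hom_inv_id_assoc]
  have h3 : MorphismProperty.RespectsIso @GeometricallyIntegral :=
    MorphismProperty.IsStableUnderBaseChange.respectsIso
  rw [h2]
  exact (MorphismProperty.cancel_left_of_respectsIso @GeometricallyIntegral U.isoSpec.hom _).2 h1

theorem isIntegral_of_isPullback_of_cover {X : Scheme.{u}} (x : X ⟶ Spec (CommRingCat.of K))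
    [IsIntegral X] (𝒰 : X.OpenCover) [∀ i, IsAffine (𝒰.X i)] {K' : Type u} [Field K']
    (y : Spec (CommRingCat.of K') ⟶ Spec (CommRingCat.of K)) {Z : Scheme.{u}} (fst : Z ⟶ X)
    (snd : Z ⟶ Spec (CommRingCat.of K')) (h : IsPullback fst snd x y) : IsIntegral Z := by
  have hU : ∀ i, Nonempty (𝒰.X i) → IsIntegral (𝒰.X i) := fun i _ =>
    isIntegral_of_isOpenImmersion (𝒰.f i)
  have hV : ∀ i, Nonempty (𝒰.X i) → IsIntegral ((𝒰.pullback₁ fst).X i) := by
    intro i hi
    have := hU i hi
    have hg : GeometricallyIntegral (𝒰.f i ≫ x) := geometricallyIntegral_of_isAffine _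
    exact hg.geometrically_isIntegral y _ _
      ((IsPullback.of_hasPullback fst (𝒰.f i)).flip.paste_vert h)
  have hVe : ∀ i, IsEmpty (𝒰.X i) → IsEmpty ((𝒰.pullback₁ fst).X i) := by
    intro i hi
    exact Function.isEmpty (pullback.snd fst (𝒰.f i))
  have hy : Surjective y := ⟨Function.surjective_to_subsingleton _⟩
  have hfst : Surjective fst := MorphismProperty.of_isPullback (P := @Surjective) h.flip hy
  have hrange : ∀ i, Set.range ((𝒰.pullback₁ fst).f i) = fst ⁻¹' Set.range (𝒰.f i) := fun i =>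
    Scheme.Pullback.range_fst fst (𝒰.f i)
  have hoi : ∀ i : 𝒰.I₀, IsOpen (Set.range (𝒰.f i)) := fun i =>
    (𝒰.f i).isOpenEmbedding.isOpen_range
  have hne : Nonempty Z := by
    obtain ⟨x₀⟩ : Nonempty X := inferInstance
    obtain ⟨z, -⟩ := fst.surjective x₀
    exact ⟨z⟩
  rw [isIntegral_iff_irreducibleSpace_and_isReduced]
  constructor
  · refine irreducibleSpace_of_cover (fun i => Set.range ((𝒰.pullback₁ fst).f i))
      (fun i => ((𝒰.pullback₁ fst).f i).isOpenEmbedding.isOpen_range) (fun i => ?_) (fun z => ?_)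
      (fun i j hi hj => ?_)
    · rcases isEmpty_or_nonempty (𝒰.X i) with hi | hi
      · have := hVe i hi
        rw [Set.range_eq_empty]
        exact isPreirreducible_empty
      · have := hV i hi
        rw [← Set.image_univ]
        exact ((IrreducibleSpace.isIrreducible_univ _).image _
          ((𝒰.pullback₁ fst).f i).continuous.continuousOn).isPreirreducible
    · obtain ⟨i, w, hw⟩ := Scheme.Cover.exists_eq (𝒰.pullback₁ fst) z
      exact ⟨i, w, hw⟩
    · simp only [hrange] at hi hj ⊢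
      obtain ⟨zi, hzi⟩ := hi
      obtain ⟨zj, hzj⟩ := hj
      obtain ⟨x₀, hx₀⟩ : (Set.range (𝒰.f i) ∩ Set.range (𝒰.f j)).Nonempty :=
        nonempty_preirreducible_inter (hoi i) (hoi j) ⟨_, hzi⟩ ⟨_, hzj⟩
      obtain ⟨z, rfl⟩ := fst.surjective x₀
      exact ⟨z, hx₀⟩
  · have : ∀ i, IsReduced ((𝒰.pullback₁ fst).X i) := fun i => by
      rcases isEmpty_or_nonempty (𝒰.X i) with hi | hi
      · have := hVe i hi
        exact isReduced_of_isEmpty' _
      · have := hV i hi
        infer_instance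
    exact IsReduced.of_openCover Z (𝒰.pullback₁ fst)

theorem geometricallyIntegral_of_isAlgClosed {X : Scheme.{u}} (x : X ⟶ Spec (CommRingCat.of K))
    [IsIntegral X] : GeometricallyIntegral x :=
  ⟨fun _ _ y _ fst snd h => isIntegral_of_isPullback_of_cover x X.affineCover y fst snd h⟩

end Fermat.Agent.S26.P

end
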