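/-
S26 / block P, leaf P3-ALG (helper106).  Mathlib only.

`S` a domain, standard smooth of relative dimension `g` over a perfect field `K`: the fraction field of `S` has a
transcendence basis indexed by `Fin g`.  Proof: take a separating transcendence basis `s` of `L = Frac S`; then `L` is
formally etale over `K[s]` and over `S`, so `#s = dim_L Ω[L⁄K] = g`.
-/
import Mathlib

set_option autoImplicit false
set_option linter.style.haveILetI false

namespace Fermat.Agent.S26.P

open TensorProduct Cardinal

/-- differentials of a formally etale algebra over a ring with free differentials -/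
theorem rank_kaehler_of_formallyEtale (K P L : Type*) [CommRing K] [CommRing P] [Field L]
    [Algebra K P] [Algebra K L] [Algebra P L] [IsScalarTower K P L] [Algebra.FormallyEtale P L]
    {ι : Type*} (b : Module.Basis ι P Ω[P⁄K]) :
    Nonempty (Module.Basis ι L Ω[L⁄K]) :=
  ⟨(b.baseChange L).map (KaehlerDifferential.tensorKaehlerEquivOfFormallyEtale K P L)⟩

open scoped IntermediateField.algebraAdjoinAdjoin in
/-- a field which is separable over `K(v)`, `v` algebraically independent, is formally etale over `K[v]` -/
theorem formallyEtale_mvPolynomial {K L ι : Type*} [Field K] [Field L] [Algebra K L] {v : ι → L}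
    (hb : AlgebraicIndependent K v)
    [Algebra.IsSeparable (IntermediateField.adjoin K (Set.range v)) L] :
    letI : Algebra (MvPolynomial ι K) L := (MvPolynomial.aeval v).toAlgebra
    Algebra.FormallyEtale (MvPolynomial ι K) L := by
  letI : Algebra (MvPolynomial ι K) L := (MvPolynomial.aeval v).toAlgebra
  letI : Algebra (MvPolynomial ι K) (Algebra.adjoin K (Set.range v)) :=
    (hb.aevalEquiv : MvPolynomial ι K →ₐ[K] Algebra.adjoin K (Set.range v)).toAlgebra
  haveI : IsScalarTower (MvPolynomial ι K) (Algebra.adjoin K (Set.range v)) L :=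
    IsScalarTower.of_algebraMap_eq fun x => (hb.algebraMap_aevalEquiv x).symm
  haveI : Algebra.FormallyEtale (MvPolynomial ι K) (Algebra.adjoin K (Set.range v)) :=
    Algebra.FormallyEtale.of_equiv
      (AlgEquiv.ofBijective (Algebra.ofId (MvPolynomial ι K) (Algebra.adjoin K (Set.range v)))
        hb.aevalEquiv.bijective)
  haveI : Algebra.FormallyEtale (Algebra.adjoin K (Set.range v))
      (IntermediateField.adjoin K (Set.range v)) :=
    .of_isLocalization (nonZeroDivisors _)
  haveI : Algebra.FormallyEtale (IntermediateField.adjoin K (Set.range v)) L :=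
    Algebra.FormallyEtale.of_isSeparable _ L
  haveI : Algebra.FormallyEtale (Algebra.adjoin K (Set.range v)) L :=
    .comp _ (IntermediateField.adjoin K (Set.range v)) _
  exact .comp _ (Algebra.adjoin K (Set.range v)) _

theorem exists_isTranscendenceBasis_of_isStandardSmooth (K S L : Type*) [Field K] [PerfectField K]
    [CommRing S] [IsDomain S] [Algebra K S] (g : ℕ)
    [Algebra.IsStandardSmoothOfRelativeDimension g K S] [Field L] [Algebra S L]
    [IsFractionRing S L] [Algebra K L] [IsScalarTower K S L] :
    ∃ y : Fin g → L, IsTranscendenceBasis K y := by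
  have hss : Algebra.IsStandardSmooth K S :=
    Algebra.IsStandardSmoothOfRelativeDimension.isStandardSmooth g
  -- `dim_L Ω[L⁄K] = g`
  have hrank := Algebra.IsStandardSmoothOfRelativeDimension.rank_kaehlerDifferential
    (R := K) (S := S) g
  have hfin : Module.finrank S Ω[S⁄K] = g := Module.finrank_eq_of_rank_eq hrank
  let b : Module.Basis (Fin g) S Ω[S⁄K] := Module.finBasisOfFinrankEq S _ hfin
  haveI : Algebra.FormallyEtale S L := .of_isLocalization (nonZeroDivisors S)
  obtain ⟨b₁⟩ := rank_kaehler_of_formallyEtale K S L b
  -- a separating transcendence basis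
  haveI : Algebra.EssFiniteType S L := .of_isLocalization L (nonZeroDivisors S)
  haveI : Algebra.EssFiniteType K L := .comp K S L
  obtain ⟨s, hs, H⟩ := exists_isTranscendenceBasis_and_isSeparable_of_perfectField K L
  haveI : Algebra.IsSeparable (↥(IntermediateField.adjoin K (Set.range ((↑) : s → L)))) L := by
    convert! H <;> simp
  letI : Algebra (MvPolynomial s K) L := (MvPolynomial.aeval ((↑) : s → L)).toAlgebra
  haveI : IsScalarTower K (MvPolynomial s K) L :=
    IsScalarTower.of_algebraMap_eq fun x => ((MvPolynomial.aeval ((↑) : s → L)).commutes x).symm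
  haveI : Algebra.FormallyEtale (MvPolynomial s K) L := formallyEtale_mvPolynomial hs.1
  obtain ⟨b₂⟩ := rank_kaehler_of_formallyEtale K (MvPolynomial s K) L
    (KaehlerDifferential.mvPolynomialBasis K s)
  let e : Fin g ≃ s := b₁.indexEquiv b₂
  exact ⟨fun i => (e i : L), hs.comp_equiv e⟩

end Fermat.Agent.S26.P
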