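/-
S26 / block P, leaf P3 (helper106, task 3357): the function field of an integral scheme which is smooth of relative
dimension `g` over an algebraically closed field `K` has a transcendence basis indexed by `Fin g`.
-/
import Fermat.Agent.S26.B.Defs
import Fermat.Agent.S26.P.TrdegAlg

set_option autoImplicit false
set_option linter.style.haveILetI false

universe u

open CategoryTheory CategoryTheory.Limits AlgebraicGeometry NeronModelInfra GoodReductionJacobian

namespace Fermat.Agent.S26.P.Trdeg

variable {K : Type u} [Field K] {A : Scheme.{u}} {f : A ⟶ SpK K}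

/-- **P3.** the function field has transcendence degree `g`. -/
theorem exists_isTranscendenceBasis [PerfectField K] [IsIntegral A] (g : ℕ)
    [SmoothOfRelativeDimension g f] :
    letI := ffAlgebra K f
    ∃ y : Fin g → A.functionField, IsTranscendenceBasis K y := by
  letI := ffAlgebra K f
  obtain ⟨U, hU, V, hV, hx, e, hf⟩ :=
    SmoothOfRelativeDimension.exists_isStandardSmoothOfRelativeDimension (n := g) (f := f)
      (genericPoint A)
  have hUtop : U = ⊤ := by
    ext y
    have h1 : f (genericPoint A) ∈ U := e hx
    have h2 : y = f (genericPoint A) := Subsingleton.elim _ _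
    simp [h2, h1]
  subst hUtop
  haveI : Nonempty V := ⟨⟨_, hx⟩⟩
  let φ : K →+* Γ(A, V) :=
    (f.appLE ⊤ V e).hom.comp (Scheme.ΓSpecIso (CommRingCat.of K)).inv.hom
  have hφ : φ.IsStandardSmoothOfRelativeDimension g := by
    have h0 := RingHom.IsStandardSmoothOfRelativeDimension.equiv
      (Scheme.ΓSpecIso (CommRingCat.of K)).symm.commRingCatIsoToRingEquiv
    have := RingHom.IsStandardSmoothOfRelativeDimension.comp hf h0
    exact this
  letI : Algebra K Γ(A, V) := φ.toAlgebra
  haveI : Algebra.IsStandardSmoothOfRelativeDimension g K Γ(A, V) := hφ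
  haveI : IsFractionRing Γ(A, V) A.functionField :=
    functionField_isFractionRing_of_isAffineOpen A V hV
  haveI : IsScalarTower K Γ(A, V) A.functionField := by
    refine IsScalarTower.of_algebraMap_eq fun a => ?_
    change constFF K f a = (A.germToFunctionField V).hom (φ a)
    simp only [constFF, φ, RingHom.comp_apply]
    generalize (Scheme.ΓSpecIso (CommRingCat.of K)).inv.hom a = b
    exact (A.presheaf.germ_res_apply (homOfLE e) (genericPoint A) hx (f.app ⊤ b)).symm
  exact exists_isTranscendenceBasis_of_isStandardSmooth K Γ(A, V) A.functionField g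

end Fermat.Agent.S26.P.Trdeg
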