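/-
S26 / block P : CONTRACT of the block (basic geometry of `A`).
-/
import Fermat.Agent.S26.B.Defs
import Fermat.Agent.S26.P.Const
import Fermat.Agent.S26.P.Trdeg
import Fermat.Agent.S26.P.GeomInt
import Fermat.Agent.S26.Loc.Integral

set_option autoImplicit false

universe u

open CategoryTheory CategoryTheory.Limits AlgebraicGeometry NeronModelInfra GoodReductionJacobian

namespace Fermat.Agent.S26.P

variable {K : Type u} [Field K] [IsAlgClosed K] {A : Scheme.{u}} {f : A ⟶ SpK K}

/-- **P1.** `A` is integral. -/
theorem isIntegral (L : RelativeGroupLaw K f) (hA : AbelianSchemePropertyBundle K f) :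
    IsIntegral A :=
  Fermat.Agent.S26.Loc.intNode K f hA

/-- **P2.** `A` is geometrically integral over `K`. -/
theorem geometricallyIntegral (L : RelativeGroupLaw K f) (hA : AbelianSchemePropertyBundle K f) :
    GeometricallyIntegral f := by
  have := isIntegral L hA
  exact geometricallyIntegral_of_isAlgClosed f

/-- **P3.** the function field has transcendence degree `g`. -/
theorem exists_isTranscendenceBasis [IsIntegral A] (g : ℕ) [SmoothOfRelativeDimension g f] :
    letI := ffAlgebra K f
    ∃ y : Fin g → A.functionField, IsTranscendenceBasis K y :=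
  Trdeg.exists_isTranscendenceBasis g

omit [IsAlgClosed K] in
/-- **P4.** function field maps of `K`-morphisms are `K`-linear. -/
theorem isFnMap_constFF {X Y : Scheme.{u}} [IsIntegral X] [IsIntegral Y] (x : X ⟶ SpK K)
    (y : Y ⟶ SpK K) (φ : X ⟶ Y) (hφ : φ ≫ y = x) (ψ : Y.functionField →+* X.functionField)
    (h : IsFnMap φ ψ) (a : K) : ψ (constFF K y a) = constFF K x a :=
  isFnMap_constFF' x y φ hφ ψ h a

end Fermat.Agent.S26.P
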